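/-
S35lib / Gal / DetCyclo  (helper3), brick R1 of route FN.

For an adic Galois representation `ρ` (rank 2, adically continuous) over a local ring `O` complete
for its maximal ideal, with residue characteristic `p`, whose Frobenius elements at the primes
`ℓ ∉ S₀` have characteristic polynomial `X² - t_ℓ X + ℓ`:

  `det ρ(σ) = χ_p(σ)` for EVERY `σ ∈ G_ℚ`   (`χ_p` = the `p`-adic cyclotomic character `chiAdic`),

by weak Chebotarev (`S31lib.WC.brickWC`) + adic continuity of both sides.  Consequence: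
`det ρ(φ) = q` for every Frobenius LIFT `φ` at a prime `q ≠ p` — also at the ramified primes.
-/
import Fermat.Agent.S34lib.TC.Unip
import Fermat.Agent.S29lib.S30.CycloAdic
import Fermat.Agent.S31lib.WC.Export

set_option autoImplicit false
set_option linter.unusedSectionVars false
set_option linter.style.haveILetI false

noncomputable section

namespace Fermat.Agent.S35lib.Gal

open Polynomial IsLocalRing Fermat.Agent.S29lib.S30

/-- `ℚ̄` -/
local notation "Qb" => AlgebraicClosure ℚ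
/-- `G_ℚ` -/
local notation "GQ" => (AlgebraicClosure ℚ ≃ₐ[ℚ] AlgebraicClosure ℚ)

variable {O : Type} [CommRing O] [IsLocalRing O] [IsAdicComplete (maximalIdeal O) O]
variable (p : ℕ) [hpf : Fact p.Prime] (hpO : (p : O) ∈ maximalIdeal O)

/-- **R1.** `det ρ = χ_p` on all of `G_ℚ`. -/
theorem det_eq_chiAdic (ρ : GaloisRepAdic O) (S₀ : Finset ℕ)
    (hchar : ∀ ℓ : ℕ, ℓ.Prime → ℓ ∉ S₀ → ∀ A : ValuationSubring Qb, A.LiesOverPrime ℓ →
      ∀ φ : GQ, A.IsFrobeniusAt φ ℓ →
        ∃ t : O, LinearMap.charpoly (ρ.ρ φ) = X ^ 2 - C t * X + C (ℓ : O))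
    (σ : GQ) :
    LinearMap.det (ρ.ρ σ) = ((chiAdic p (maximalIdeal O) hpO σ : Oˣ) : O) := by
  classical
  have hp : p.Prime := hpf.out
  -- it suffices to prove the congruence modulo every power of the maximal ideal
  have key : ∀ n : ℕ, LinearMap.det (ρ.ρ σ) - ((chiAdic p (maximalIdeal O) hpO σ : Oˣ) : O) ∈
      maximalIdeal O ^ n := by
    intro n
    obtain ⟨L₁, hL₁fin, hL₁⟩ := ρ.isAdicContinuous n
    haveI := hL₁fin
    let L : IntermediateField ℚ Qb := L₁ ⊔ cycloFieldPow p n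
    haveI : FiniteDimensional ℚ L := IntermediateField.finiteDimensional_sup L₁ (cycloFieldPow p n)
    obtain ⟨ℓ, A, φ, j, hℓ, hℓS, hA, hφ, hagree⟩ :=
      Fermat.Agent.S31lib.WC.brickWC (insert p S₀) L inferInstance σ
    have hℓp : ℓ ≠ p := fun h => hℓS (h ▸ Finset.mem_insert_self _ _)
    have hℓS₀ : ℓ ∉ S₀ := fun h => hℓS (Finset.mem_insert_of_mem h)
    obtain ⟨t, ht⟩ := hchar ℓ hℓ hℓS₀ A hA φ hφ
    -- the determinant side
    have h1 : LinearMap.det (ρ.ρ σ) - (ℓ : O) ^ j ∈ maximalIdeal O ^ n :=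
      Fermat.Agent.S34lib.det_sub_pow_mem ρ (maximalIdeal O ^ n) L
        (fun g hg v => hL₁ g (fun x hx => hg x (le_sup_left (a := L₁) hx)) v) hagree ht
    -- the cyclotomic side
    have hτ : ∀ x ∈ cycloFieldPow p n, ((φ ^ j)⁻¹ * σ) x = x := by
      intro x hx
      have hxL : x ∈ L := le_sup_right (a := L₁) hx
      rw [AlgEquiv.mul_apply, ← hagree x hxL]
      exact (φ ^ j).symm_apply_apply x
    have h2 := chiAdic_sub_one_mem (I := maximalIdeal O) hpO hτ
    have h3 : ((chiAdic p (maximalIdeal O) hpO σ : Oˣ) : O) =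
        (ℓ : O) ^ j * ((chiAdic p (maximalIdeal O) hpO ((φ ^ j)⁻¹ * σ) : Oˣ) : O) := by
      have hmul : σ = φ ^ j * ((φ ^ j)⁻¹ * σ) := by rw [mul_inv_cancel_left]
      conv_lhs => rw [hmul]
      rw [map_mul, map_pow, Units.val_mul, Units.val_pow_eq_pow_val,
        chiAdic_of_isFrobeniusAt (I := maximalIdeal O) hpO hℓ hℓp hA hφ]
    have h4 : (ℓ : O) ^ j - ((chiAdic p (maximalIdeal O) hpO σ : Oˣ) : O) ∈ maximalIdeal O ^ n := by
      rw [h3]
      have : (ℓ : O) ^ j - (ℓ : O) ^ j *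
          ((chiAdic p (maximalIdeal O) hpO ((φ ^ j)⁻¹ * σ) : Oˣ) : O) =
          -((ℓ : O) ^ j * (((chiAdic p (maximalIdeal O) hpO ((φ ^ j)⁻¹ * σ) : Oˣ) : O) - 1)) := by
        ring
      rw [this]
      exact (maximalIdeal O ^ n).neg_mem ((maximalIdeal O ^ n).mul_mem_left _ h2)
    have := (maximalIdeal O ^ n).add_mem h1 h4
    rwa [sub_add_sub_cancel] at this
  -- separatedness
  have hsep : IsHausdorff (maximalIdeal O) O := inferInstance
  rw [← sub_eq_zero]
  apply hsep.haus'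
  intro n
  rw [SModEq.zero]
  have := key n
  rwa [smul_eq_mul, Ideal.mul_top]

/-- **Frobenius lifts at every prime `q ≠ p` have determinant `q`** (also when `ρ` is ramified
at `q`). -/
theorem det_frobenius_lift (hpO' : (p : O) ∈ maximalIdeal O) (ρ : GaloisRepAdic O) (S₀ : Finset ℕ)
    (hchar : ∀ ℓ : ℕ, ℓ.Prime → ℓ ∉ S₀ → ∀ A : ValuationSubring Qb, A.LiesOverPrime ℓ →
      ∀ φ : GQ, A.IsFrobeniusAt φ ℓ →
        ∃ t : O, LinearMap.charpoly (ρ.ρ φ) = X ^ 2 - C t * X + C (ℓ : O))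
    {q : ℕ} (hq : q.Prime) (hqp : q ≠ p) {A : ValuationSubring Qb} (hA : A.LiesOverPrime q)
    {φ : GQ} (hφ : A.IsFrobeniusAt φ q) :
    LinearMap.det (ρ.ρ φ) = (q : O) := by
  rw [det_eq_chiAdic p hpO' ρ S₀ hchar φ,
    chiAdic_of_isFrobeniusAt (I := maximalIdeal O) hpO' hq hqp hA hφ]

end Fermat.Agent.S35lib.Gal
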