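/-
S35lib / Gal / FrobNew  (helper3): the linear-algebra end of route FN.

`V` free of rank 2 over a domain `R`, `F : End_R V` with `(F² - 1)(F² - q²) = 0` (the relation FN
`(σ² - q²)(σ² - 1) = 0` on the `q`-new eigen-piece) and `det F = q ≠ 0`:

  `charpoly F = X² - (q + 1) X + q`   or   `charpoly F = X² + (q + 1) X + q`.

Proof: with `t = tr F`, Cayley–Hamilton `F² = t F - q` gives
`(F² - 1)(F² - q²) = (t² - (q + 1)²) • F²`, and `F² ≠ 0` because `det F ≠ 0`.
-/
import Fermat.Agent.S35lib.Tame.TwoByTwo

set_option autoImplicit false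

noncomputable section

namespace Fermat.Agent.S35lib.Gal

open Polynomial Fermat.Agent.S35lib.Tame

section Abstract

variable {R : Type*} [CommRing R] {E : Type*} [Ring E] [Algebra R E]

/-- the polynomial identity behind FN -/
theorem frobNew_identity (F : E) (t q : R) (hCH : F * F = t • F - q • (1 : E)) :
    (F * F - 1) * (F * F - (q ^ 2) • (1 : E)) = (t ^ 2 - (q + 1) ^ 2) • (F * F) := by
  have h1 : F * F - 1 = t • F - (q + 1) • (1 : E) := by
    rw [hCH, add_smul, one_smul]; abel
  have h2 : F * F - (q ^ 2) • (1 : E) = t • F - (q * (q + 1)) • (1 : E) := by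
    rw [hCH]
    have : (q * (q + 1)) • (1 : E) = q • (1 : E) + (q ^ 2) • (1 : E) := by
      rw [← add_smul]; congr 1; ring
    rw [this]; abel
  have hAB : ∀ a b : R, (t • F - a • (1 : E)) * (t • F - b • (1 : E)) =
      (t * t) • (F * F) - (t * b + a * t) • F + (a * b) • (1 : E) := by
    intro a b
    simp only [sub_mul, mul_sub, smul_mul_assoc, mul_smul_comm, one_mul, mul_one, smul_smul]
    module
  rw [h1, h2, hAB]
  -- everything is now an `R`-linear combination of `F * F`, `F`, `1`; substitute `F * F`
  have h3 : (t * t) • (F * F) = (t * t * t) • F - (t * t * q) • (1 : E) := by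
    rw [hCH, smul_sub, smul_smul, smul_smul]
  have h4 : (t ^ 2 - (q + 1) ^ 2) • (F * F) =
      ((t ^ 2 - (q + 1) ^ 2) * t) • F - ((t ^ 2 - (q + 1) ^ 2) * q) • (1 : E) := by
    rw [hCH, smul_sub, smul_smul, smul_smul]
  rw [h3, h4]
  module

end Abstract

section RankTwo

variable {R : Type*} [CommRing R] [IsDomain R] {V : Type*} [AddCommGroup V] [Module R V]
  [Module.Free R V] [Module.Finite R V]

/-- **the linear-algebra end of route FN** -/
theorem charpoly_of_frobNew (hrank : Module.finrank R V = 2) (F : Module.End R V) (q : R)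
    (hq0 : q ≠ 0)
    (hP : (F * F - 1) * (F * F - (q ^ 2) • (1 : Module.End R V)) = 0)
    (hdet : LinearMap.det F = q) :
    LinearMap.charpoly F = X ^ 2 - C (q + 1) * X + C q ∨
      LinearMap.charpoly F = X ^ 2 + C (q + 1) * X + C q := by
  have hcp := charpoly_eq_trace_det hrank F
  rw [hdet] at hcp
  -- Cayley–Hamilton
  have hCH : F * F = (LinearMap.trace R V F) • F - q • (1 : Module.End R V) := by
    have h := LinearMap.aeval_self_charpoly F
    rw [hcp] at h
    simp only [map_add, map_sub, map_mul, map_pow, aeval_X, aeval_C] at h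
    rw [Algebra.algebraMap_eq_smul_one, Algebra.algebraMap_eq_smul_one, smul_mul_assoc, one_mul,
      sq] at h
    rw [eq_sub_iff_add_eq, ← sub_eq_zero, ← h]
    abel
  have hid := frobNew_identity F (LinearMap.trace R V F) q hCH
  rw [hP] at hid
  -- `F * F ≠ 0`
  have hFF : F * F ≠ 0 := by
    intro h0
    have := congrArg LinearMap.det h0
    rw [map_mul, hdet, LinearMap.det_zero' (Module.finBasisOfFinrankEq R V hrank)] at this
    · exact hq0 (mul_self_eq_zero.1 this)
  have ht : LinearMap.trace R V F ^ 2 = (q + 1) ^ 2 := by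
    rcases smul_eq_zero.1 hid.symm with h | h
    · exact sub_eq_zero.1 h
    · exact absurd h hFF
  have hfac : (LinearMap.trace R V F - (q + 1)) * (LinearMap.trace R V F + (q + 1)) = 0 := by
    have : (LinearMap.trace R V F - (q + 1)) * (LinearMap.trace R V F + (q + 1)) =
        LinearMap.trace R V F ^ 2 - (q + 1) ^ 2 := by ring
    rw [this, ht, sub_self]
  rcases mul_eq_zero.1 hfac with h | h
  · left
    rw [hcp, sub_eq_zero.1 h]
  · right
    rw [hcp, eq_neg_of_add_eq_zero_left h, map_neg, neg_mul, sub_neg_eq_add]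

end RankTwo

end Fermat.Agent.S35lib.Gal
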